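import Fermat.Agent.S27.H386.CharFreeFF1
import Fermat.Agent.Lib.RR.H864.FF1Modular
import Fermat.Agent.S18.H383.FF1Modular
import Fermat.Agent.S18.H516.CoreRes
import Fermat.Agent.A3.GR.H195.GenusLeaf
import Fermat.Agent.S37.Core.Inst
import Fermat.Agent.S18

/-!
# RIBET / WALL-q: (GR-SURJ), torsion lifts along the reduction map of `J₀(N)`   (helper937)

Hidden input of Mazur's principle (memo `origin/helper344:coord/RIBET-GRsurj-helper344.md`,
used by `H158.WallQ.RedMapStatement`): for `ℓ ∤ N`, a valuation subring `A` of `ℚ̄` above `ℓ` and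
`m` prime to `ℓ`, the reduction map `reductionModL A N : J₀(N) → Pic⁰(k(X₀(N)))`, `k = A/𝔪`,
restricts to a BIJECTION on `m`-torsion.

* injective: the frozen S18 (`Fermat.Agent.S18.result`);
* equal finite cardinalities `m^(2g)`: the characteristic-free torsion count of row S27
  (`S27.H386.natCard_torsion_of_ff1`, helper386) on both sides + equality of the genera
  (`A3.GR.H195.genus_eq_modular`, helper195, from the reduction datum `S37.Core.datumStatement`).

## Exact statements (all sorry-free)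
* `natCard_torsion_jZero N m (hm : m ≠ 0)`;
* `natCard_torsion_jZeroC N hℓN A hA m (hm : ¬ ℓ ∣ m)`;
* `reductionTorsion A N m : Pic0.torsion ℚ̄ F_N m →+ Pic0.torsion k F_{N,k} m` (restriction of
  `reductionModL A N`), `reductionTorsion_coe`;
* `reductionTorsion_injective` (S18), `reductionTorsion_bijective_of_genus_eq`,
  `reductionTorsion_bijective` (good levels);
* `grSurj_of_genus_eq`, **`grSurj`** : `m • y = 0 → ∃ x, m • x = 0 ∧ reductionModL A N x = y`;
* `grSurj_unique` : the lift is unique;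
* `grSurjStatement : GRSurjStatement` (all good levels, all `m` prime to `ℓ`, no `h`).
-/

set_option autoImplicit false
set_option synthInstance.maxHeartbeats 400000
set_option linter.style.haveILetI false
set_option linter.unusedSectionVars false

noncomputable section

namespace Fermat.Agent.Ribet.H937

open AlgebraicCurve ModularCurve IsLocalRing

local notation "Qb937" => AlgebraicClosure ℚ

/-- The torsion count of `J₀(N)(ℚ̄)`. -/
theorem natCard_torsion_jZero (N : ℕ) [NeZero N] (m : ℕ) (hm : m ≠ 0) :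
    Nat.card (Pic0.torsion Qb937 (modularFunctionFieldBar N) m) =
      m ^ (2 * genusFF Qb937 (modularFunctionFieldBar N)) := by
  haveI : Fermat.Agent.Lib.RR.FF1 Qb937 (modularFunctionFieldBar N) :=
    Fermat.Agent.Lib.RR.H864.ff1_modularFunctionFieldBar N
  exact Fermat.Agent.S27.H386.natCard_torsion_of_ff1 Qb937 (modularFunctionFieldBar N) m
    (Nat.cast_ne_zero.mpr hm)

/-- The torsion count of `Pic⁰` of the reduction of `X₀(N)` at `ℓ ∤ N`, prime to `ℓ`. -/
theorem natCard_torsion_jZeroC (N : ℕ) [NeZero N] {ℓ : ℕ} [Fact ℓ.Prime] (hℓN : ¬ ℓ ∣ N)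
    (A : ValuationSubring Qb937) (hA : A.LiesOverPrime ℓ) (m : ℕ) (hm : ¬ ℓ ∣ m) :
    Nat.card (Pic0.torsion (ResidueField A) (modularFunctionFieldFullC (ResidueField A) N) m) =
      m ^ (2 * genusFF (ResidueField A) (modularFunctionFieldFullC (ResidueField A) N)) := by
  haveI : IsAlgClosed (ResidueField A) := Fermat.Agent.S18.H9.resAlgClosed Qb937 A
  haveI : Fermat.Agent.Lib.RR.FF1 (ResidueField A)
      (modularFunctionFieldFullC (ResidueField A) N) :=
    Fermat.Agent.S18.H383.ff1_residue N ℓ Fact.out hℓN A hA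
  haveI : CharP (ResidueField A) ℓ := Fermat.Agent.S18.H516.charP_residue A hA
  refine Fermat.Agent.S27.H386.natCard_torsion_of_ff1 (ResidueField A)
    (modularFunctionFieldFullC (ResidueField A) N) m ?_
  rw [Ne, CharP.cast_eq_zero_iff (ResidueField A) ℓ m]
  exact hm

/-- The reduction map sends `m`-torsion to `m`-torsion. -/
theorem reductionModL_mem_torsion (A : ValuationSubring Qb937) (N : ℕ) (m : ℕ)
    {x : JZero N} (hx : x ∈ Pic0.torsion Qb937 (modularFunctionFieldBar N) m) :
    reductionModL A N x ∈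
      Pic0.torsion (ResidueField A) (modularFunctionFieldFullC (ResidueField A) N) m := by
  rw [Pic0.mem_torsion] at hx ⊢
  rw [← map_zsmul, hx, map_zero]

/-- The reduction map on `m`-torsion. -/
def reductionTorsion (A : ValuationSubring Qb937) (N : ℕ) (m : ℕ) :
    Pic0.torsion Qb937 (modularFunctionFieldBar N) m →+
      Pic0.torsion (ResidueField A) (modularFunctionFieldFullC (ResidueField A) N) m :=
  ((reductionModL A N).comp (Pic0.torsion Qb937 (modularFunctionFieldBar N) m).subtype).codRestrict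
    _ fun x => reductionModL_mem_torsion A N m x.2

@[simp]
theorem reductionTorsion_coe (A : ValuationSubring Qb937) (N : ℕ) (m : ℕ)
    (x : Pic0.torsion Qb937 (modularFunctionFieldBar N) m) :
    ((reductionTorsion A N m x : Pic0.torsion (ResidueField A)
        (modularFunctionFieldFullC (ResidueField A) N) m) :
      JZeroC (ResidueField A) N) = reductionModL A N (x : JZero N) :=
  rfl

/-- `m • x = 0` in terms of `Pic0.torsion`. -/
theorem mem_torsion_iff_nsmul {K F : Type*} [Field K] [Field F] [Algebra K F] {m : ℕ}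
    {x : Pic0 K F} : x ∈ Pic0.torsion K F m ↔ m • x = 0 := by
  rw [Pic0.mem_torsion, natCast_zsmul]

/-- **S18 on torsion**: the reduction map is injective on `m`-torsion, `ℓ ∤ m`. -/
theorem reductionTorsion_injective (N : ℕ) [NeZero N] {ℓ : ℕ} [Fact ℓ.Prime] (hℓN : ¬ ℓ ∣ N)
    (A : ValuationSubring Qb937) (hA : A.LiesOverPrime ℓ) (h : ReductionInputsModL A N)
    (m : ℕ) (hm : ¬ ℓ ∣ m) : Function.Injective (reductionTorsion A N m) := by
  rw [injective_iff_map_eq_zero]
  intro x hx
  have h1 : reductionModL A N (x : JZero N) = 0 := by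
    rw [← reductionTorsion_coe, hx]; rfl
  have h2 : m • (x : JZero N) = 0 := mem_torsion_iff_nsmul.mp x.2
  exact Subtype.ext (Fermat.Agent.S18.result N hℓN A hA h m hm (x : JZero N) h2 h1)

/-- The reduction map is bijective on `m`-torsion, given the equality of the genera. -/
theorem reductionTorsion_bijective_of_genus_eq (N : ℕ) [NeZero N] {ℓ : ℕ} [Fact ℓ.Prime]
    (hℓN : ¬ ℓ ∣ N) (A : ValuationSubring Qb937) (hA : A.LiesOverPrime ℓ)
    (h : ReductionInputsModL A N)
    (hg : genusFF Qb937 (modularFunctionFieldBar N) =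
      genusFF (ResidueField A) (modularFunctionFieldFullC (ResidueField A) N))
    (m : ℕ) (hm : ¬ ℓ ∣ m) : Function.Bijective (reductionTorsion A N m) := by
  have hm0 : m ≠ 0 := fun h0 => hm (h0 ▸ dvd_zero ℓ)
  have hc0 := natCard_torsion_jZero N m hm0
  have hc1 := natCard_torsion_jZeroC N hℓN A hA m hm
  haveI : Finite (Pic0.torsion Qb937 (modularFunctionFieldBar N) m) :=
    Nat.finite_of_card_ne_zero (by rw [hc0]; exact pow_ne_zero _ hm0)
  haveI : Finite (Pic0.torsion (ResidueField A)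
      (modularFunctionFieldFullC (ResidueField A) N) m) :=
    Nat.finite_of_card_ne_zero (by rw [hc1]; exact pow_ne_zero _ hm0)
  exact (Nat.bijective_iff_injective_and_card _).mpr
    ⟨reductionTorsion_injective N hℓN A hA h m hm, by rw [hc0, hc1, hg]⟩

/-- **(GR-SURJ)**, given the equality of the genera. -/
theorem grSurj_of_genus_eq (N : ℕ) [NeZero N] {ℓ : ℕ} [Fact ℓ.Prime]
    (hℓN : ¬ ℓ ∣ N) (A : ValuationSubring Qb937) (hA : A.LiesOverPrime ℓ)
    (h : ReductionInputsModL A N)
    (hg : genusFF Qb937 (modularFunctionFieldBar N) =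
      genusFF (ResidueField A) (modularFunctionFieldFullC (ResidueField A) N))
    (m : ℕ) (hm : ¬ ℓ ∣ m) (y : JZeroC (ResidueField A) N) (hy : m • y = 0) :
    ∃ x : JZero N, m • x = 0 ∧ reductionModL A N x = y := by
  obtain ⟨x, hx⟩ := (reductionTorsion_bijective_of_genus_eq N hℓN A hA h hg m hm).2
    ⟨y, mem_torsion_iff_nsmul.mpr hy⟩
  exact ⟨x, mem_torsion_iff_nsmul.mp x.2, congrArg Subtype.val hx⟩

/-- Equality of the genera of `X₀(N)` over `ℚ̄` and over `A/𝔪` at good levels. -/
theorem genusFF_eq_residue (N : ℕ) [NeZero N] {ℓ : ℕ} [Fact ℓ.Prime] (hℓN : ¬ ℓ ∣ N)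
    (hgood : Fermat.Agent.S37.Core.GoodLevel N ℓ)
    (A : ValuationSubring Qb937) (hA : A.LiesOverPrime ℓ) :
    genusFF Qb937 (modularFunctionFieldBar N) =
      genusFF (ResidueField A) (modularFunctionFieldFullC (ResidueField A) N) := by
  obtain ⟨G, hG, -⟩ := Fermat.Agent.S37.Core.datumStatement N ℓ Fact.out hℓN hgood A hA
  exact Fermat.Agent.A3.GR.H195.genus_eq_modular N ℓ Fact.out hℓN A hA G hG

/-- The reduction map is bijective on `m`-torsion at good levels. -/
theorem reductionTorsion_bijective (N : ℕ) [NeZero N] {ℓ : ℕ} [Fact ℓ.Prime]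
    (hℓN : ¬ ℓ ∣ N) (hgood : Fermat.Agent.S37.Core.GoodLevel N ℓ)
    (A : ValuationSubring Qb937) (hA : A.LiesOverPrime ℓ) (m : ℕ) (hm : ¬ ℓ ∣ m) :
    Function.Bijective (reductionTorsion A N m) :=
  reductionTorsion_bijective_of_genus_eq N hℓN A hA
    (Fermat.Agent.S37.Core.rimStatement N ℓ Fact.out hℓN hgood A hA)
    (genusFF_eq_residue N hℓN hgood A hA) m hm

/-- **(GR-SURJ)** at good levels: every `m`-torsion class of `Pic⁰(k(X₀(N)))`, `ℓ ∤ m`, lifts to
an `m`-torsion point of `J₀(N)`. -/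
theorem grSurj (N : ℕ) [NeZero N] {ℓ : ℕ} [Fact ℓ.Prime]
    (hℓN : ¬ ℓ ∣ N) (hgood : Fermat.Agent.S37.Core.GoodLevel N ℓ)
    (A : ValuationSubring Qb937) (hA : A.LiesOverPrime ℓ)
    (m : ℕ) (hm : ¬ ℓ ∣ m) (y : JZeroC (ResidueField A) N) (hy : m • y = 0) :
    ∃ x : JZero N, m • x = 0 ∧ reductionModL A N x = y :=
  grSurj_of_genus_eq N hℓN A hA
    (Fermat.Agent.S37.Core.rimStatement N ℓ Fact.out hℓN hgood A hA)
    (genusFF_eq_residue N hℓN hgood A hA) m hm y hy

/-- Uniqueness of the torsion lift (S18). -/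
theorem grSurj_unique (N : ℕ) [NeZero N] {ℓ : ℕ} [Fact ℓ.Prime]
    (hℓN : ¬ ℓ ∣ N) (A : ValuationSubring Qb937) (hA : A.LiesOverPrime ℓ)
    (h : ReductionInputsModL A N) (m : ℕ) (hm : ¬ ℓ ∣ m) {x x' : JZero N}
    (hx : m • x = 0) (hx' : m • x' = 0) (hxx' : reductionModL A N x = reductionModL A N x') :
    x = x' := by
  have h1 : reductionModL A N (x - x') = 0 := by rw [map_sub, hxx', sub_self]
  have h2 : m • (x - x') = 0 := by rw [nsmul_sub, hx, hx', sub_self]
  exact sub_eq_zero.mp (Fermat.Agent.S18.result N hℓN A hA h m hm (x - x') h2 h1)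

/-- **(GR-SURJ)** as a frozen Prop: at all good levels, for all `m` prime to `ℓ`. -/
def GRSurjStatement : Prop :=
  ∀ (M ℓ : ℕ) [NeZero M], ℓ.Prime → ¬ ℓ ∣ M → Fermat.Agent.S37.Core.GoodLevel M ℓ →
    ∀ A : ValuationSubring Qb937, A.LiesOverPrime ℓ →
    ∀ m : ℕ, ¬ ℓ ∣ m → ∀ y : JZeroC (ResidueField A) M, m • y = 0 →
      ∃ x : JZero M, m • x = 0 ∧ reductionModL A M x = y

theorem grSurjStatement : GRSurjStatement := by
  intro M ℓ _ hℓ hℓM hgood A hA m hm y hy
  haveI : Fact ℓ.Prime := ⟨hℓ⟩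
  exact grSurj M hℓM hgood A hA m hm y hy

end Fermat.Agent.Ribet.H937
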